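import Fermat.Agent.S20.Basic

set_option autoImplicit false

open UpperHalfPlane ModularForm MatrixGroups Filter Topology
open scoped Manifold Real

namespace Fermat.Agent.S20

open Fermat.Agent.ES

noncomputable section

local notation "Δ" => ModularForm.discriminant

variable {X : Type} [MulAction SL(2, ℤ) X]

variable {m : ℕ} (hm : 0 < m) (hT : ∀ x : X, (ModularGroup.T ^ m) • x = x)
include hm hT

lemma tendsto_scal [Finite X] {k : ℤ} {F : X → ℍ → ℂ} (hF : F ∈ VM X k) :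
    Tendsto (fun z => scal X m z (ev F z)) atImInfty (𝓝 (Linf m F)) := sorry

lemma isBigO_of_Linf_eq_zero [Finite X] {k : ℤ} {F : X → ℍ → ℂ} (hF : F ∈ VM X k)
    (h0 : Linf m F = 0) (x : X) :
    F x =O[atImInfty] fun z => Real.exp (-2 * π * z.im) := sorry

lemma tendsto_ev [Finite X] {k : ℤ} {F : X → ℍ → ℂ} (hF : F ∈ VM X k) :
    Tendsto (fun z => ev F z) atImInfty (𝓝 (proj X m 0 (Linf m F))) := sorry

lemma Linf_sum_lmul [Finite X] {ι : Type} [Fintype ι] (c : ι → ℂ) (e : ι → ℍ → ℂ) (k : ι → ℤ)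
    (F : ι → X → ℍ → ℂ) (hF : ∀ i, F i ∈ VM X (k i))
    (he : ∀ i, Tendsto (e i) atImInfty (𝓝 1)) {K : ℤ}
    (hG : (∑ i, c i • lmul (e i) (F i)) ∈ VM X K) :
    Linf m (∑ i, c i • lmul (e i) (F i)) = ∑ i, c i • Linf m (F i) := sorry

lemma proj_zero_of_invariant {v : X → ℂ} (hv : ∀ x, v (ModularGroup.T • x) = v x) :
    proj X m 0 v = v := sorry

lemma proj_zero_invariant (v : X → ℂ) (x : X) :
    proj X m 0 v (ModularGroup.T • x) = proj X m 0 v x := sorry

omit hT in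
lemma scal_bound [Fintype X] [DecidableEq X] : ∃ C : ℝ, ∀ z : ℍ, 1 ≤ z.im → ∀ x y : X,
    ‖LinearMap.toMatrix' (scal X m z) x y‖ ≤ C * Real.exp (2 * π * (m - 1) / m * z.im) := sorry

end

end Fermat.Agent.S20
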