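import Fermat.Agent.S20.Defs
import Fermat.Agent.ES.Regular

set_option autoImplicit false

open UpperHalfPlane ModularForm MatrixGroups Filter Topology
open scoped Manifold Real

namespace Fermat.Agent.S20

open Fermat.Agent.ES

noncomputable section

local notation "Δ" => ModularForm.discriminant

variable {X : Type} [MulAction SL(2, ℤ) X]

lemma lmul_mem_VM {w k : ℤ} {a : ℍ → ℂ} {F : X → ℍ → ℂ} (ha : IsMF ⊤ w a) (hF : F ∈ VM X k) :
    lmul a F ∈ VM X (w + k) :=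
  ⟨fun x => ha.1.mul (hF.1 x), fun g x => by
    show (a * F x) ∣[w + k] g = a * F (g⁻¹ • x)
    rw [mul_slash_SL2, ha.slash g, hF.2.1 g x], fun x => ha.bdd_self.mul (hF.2.2 x)⟩

lemma lmul_mem_VS {w k : ℤ} {a : ℍ → ℂ} {F : X → ℍ → ℂ} (ha : IsMF ⊤ w a) (hF : F ∈ VS X k) :
    lmul a F ∈ VS X (w + k) :=
  ⟨fun x => ha.1.mul (hF.1 x), fun g x => by
    show (a * F x) ∣[w + k] g = a * F (g⁻¹ • x)
    rw [mul_slash_SL2, ha.slash g, hF.2.1 g x],
    fun x => BoundedAtFilter.mul_zeroAtFilter ha.bdd_self (hF.2.2 x)⟩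

lemma pair_isCF [Fintype X] {k l : ℤ} {F G : X → ℍ → ℂ} (hF : F ∈ VM X k) (hG : G ∈ VS X l) :
    IsCF ⊤ (k + l) (∑ x, F x * G x) := by
  have hslash : ∀ γ : SL(2, ℤ), (∑ x, F x * G x) ∣[k + l] γ = ∑ x, F x * G x := by
    intro γ
    rw [SlashAction.sum_slash]
    simp only [mul_slash_SL2, hF.2.1 γ, hG.2.1 γ]
    exact Equiv.sum_comp (MulAction.toPerm γ⁻¹) (fun x => F x * G x)
  refine ⟨MDifferentiable.sum fun x _ => (hF.1 x).mul (hG.1 x), fun γ _ => hslash γ, fun γ => ?_⟩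
  rw [hslash γ]
  have h0 : ∀ x ∈ (Finset.univ : Finset X), Tendsto (F x * G x) atImInfty (𝓝 0) :=
    fun x _ => BoundedAtFilter.mul_zeroAtFilter (hF.2.2 x) (hG.2.2 x)
  have := tendsto_finsetSum _ h0
  simp only [Finset.sum_const_zero] at this
  show Tendsto _ _ _
  convert this using 1
  funext z
  simp

lemma pair_isMF [Fintype X] {k l : ℤ} {F G : X → ℍ → ℂ} (hF : F ∈ VM X k) (hG : G ∈ VM X l) :
    IsMF ⊤ (k + l) (∑ x, F x * G x) := by
  have hslash : ∀ γ : SL(2, ℤ), (∑ x, F x * G x) ∣[k + l] γ = ∑ x, F x * G x := by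
    intro γ
    rw [SlashAction.sum_slash]
    simp only [mul_slash_SL2, hF.2.1 γ, hG.2.1 γ]
    exact Equiv.sum_comp (MulAction.toPerm γ⁻¹) (fun x => F x * G x)
  refine ⟨MDifferentiable.sum fun x _ => (hF.1 x).mul (hG.1 x), fun γ _ => hslash γ, fun γ => ?_⟩
  rw [hslash γ]
  show (∑ x, F x * G x) =O[atImInfty] (1 : ℍ → ℝ)
  have := Asymptotics.IsBigO.sum (s := (Finset.univ : Finset X)) (A := fun x z => F x z * G x z)
    (g := (1 : ℍ → ℝ)) (l := atImInfty) fun x _ => (hF.2.2 x).mul (hG.2.2 x)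
  exact this

lemma finrank_MF_top_eq_rdim (k : ℤ) : Module.finrank ℂ (MF ⊤ k) = rdim k := by
  unfold rdim
  split_ifs with h1 h2
  · have : MF ⊤ k = ⊥ := by
      rw [eq_bot_iff]
      intro f hf
      rcases h1 with h | h
      · exact (Submodule.mem_bot ℂ).mpr (IsMF.eq_zero_of_neg h hf)
      · exact (Submodule.mem_bot ℂ).mpr (IsMF.eq_zero_of_odd neg_one_mem_top h hf)
    rw [this, finrank_bot]
  · push Not at h1
    obtain ⟨h0, he⟩ := h1
    lift k to ℕ using h0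
    rw [finrank_MF_top k (by simpa using he), if_pos (by unfold Nat.ModEq; omega)]
    omega
  · push Not at h1
    obtain ⟨h0, he⟩ := h1
    lift k to ℕ using h0
    rw [finrank_MF_top k (by simpa using he), if_neg (by unfold Nat.ModEq; omega)]
    omega

lemma VM_eq_bot_of_odd (hneg : ∀ x : X, (-1 : SL(2, ℤ)) • x = x) {k : ℤ} (hk : Odd k) :
    VM X k = ⊥ := by
  rw [eq_bot_iff]
  intro F hF
  rw [Submodule.mem_bot]
  funext x z
  have h2 := congrFun (hF.2.1 (-1) x) z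
  rw [SL_slash_apply] at h2
  have hd : denom ((-1 : SL(2, ℤ)) : GL (Fin 2) ℝ) z = -1 := by
    simp [denom]
  have hs : ((-1 : SL(2, ℤ)) • z) = z := by
    simp
  have hx : (-1 : SL(2, ℤ))⁻¹ • x = x := by
    rw [inv_smul_eq_iff, hneg]
  rw [hd, hs, hk.neg.neg_one_zpow, hx] at h2
  have : F x z = 0 := by linear_combination (-1 / 2 : ℂ) * h2
  simpa using this

end

end Fermat.Agent.S20
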