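import Fermat.Agent.S20.Basic
import Fermat.Agent.ES.Elliptic

set_option autoImplicit false

open UpperHalfPlane ModularForm MatrixGroups Filter Topology
open scoped Manifold Real

namespace Fermat.Agent.S20

open Fermat.Agent.ES

noncomputable section

local notation "Δ" => ModularForm.discriminant

variable {X : Type} [MulAction SL(2, ℤ) X]

variable {Γ : Subgroup SL(2, ℤ)}

lemma tr_mem_VM {k : ℤ} {f : ℍ → ℂ} (hf : IsMF Γ k f) :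
    (fun q : SL(2, ℤ) ⧸ Γ => tr k f q) ∈ VM (SL(2, ℤ) ⧸ Γ) k :=
  ⟨fun q => hf.tr_mdiff q, fun g q => tr_slash hf.2.1 q g, fun q => hf.tr_bdd q⟩

lemma tr_mem_VS {k : ℤ} {f : ℍ → ℂ} (hf : IsCF Γ k f) :
    (fun q : SL(2, ℤ) ⧸ Γ => tr k f q) ∈ VS (SL(2, ℤ) ⧸ Γ) k :=
  ⟨fun q => hf.isMF.tr_mdiff q, fun g q => tr_slash hf.2.1 q g, fun q => hf.tr_zero_at q⟩

lemma slash_one_of_equivariant {k : ℤ} {F : (SL(2, ℤ) ⧸ Γ) → ℍ → ℂ}
    (hF : ∀ (g : SL(2, ℤ)) (x : SL(2, ℤ) ⧸ Γ), F x ∣[k] g = F (g⁻¹ • x)) (g : SL(2, ℤ)) :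
    F ((1 : SL(2, ℤ)) : SL(2, ℤ) ⧸ Γ) ∣[k] g = F ((g⁻¹ : SL(2, ℤ)) : SL(2, ℤ) ⧸ Γ) := by
  rw [hF, MulAction.Quotient.smul_mk, smul_eq_mul, mul_one]

lemma slash_one_of_mem {k : ℤ} {F : (SL(2, ℤ) ⧸ Γ) → ℍ → ℂ}
    (hF : ∀ (g : SL(2, ℤ)) (x : SL(2, ℤ) ⧸ Γ), F x ∣[k] g = F (g⁻¹ • x)) :
    ∀ γ ∈ Γ, F ((1 : SL(2, ℤ)) : SL(2, ℤ) ⧸ Γ) ∣[k] γ = F ((1 : SL(2, ℤ)) : SL(2, ℤ) ⧸ Γ) := by
  intro γ hγ
  rw [slash_one_of_equivariant hF]
  congr 1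
  rw [QuotientGroup.eq]
  simpa using hγ

lemma tr_one_of_equivariant {k : ℤ} {F : (SL(2, ℤ) ⧸ Γ) → ℍ → ℂ}
    (hF : ∀ (g : SL(2, ℤ)) (x : SL(2, ℤ) ⧸ Γ), F x ∣[k] g = F (g⁻¹ • x))
    (q : SL(2, ℤ) ⧸ Γ) : tr k (F ((1 : SL(2, ℤ)) : SL(2, ℤ) ⧸ Γ)) q = F q := by
  induction q using QuotientGroup.induction_on with
  | H g => rw [tr_mk (slash_one_of_mem hF), slash_one_of_equivariant hF, inv_inv]

lemma isMF_of_mem_VM {k : ℤ} {F : (SL(2, ℤ) ⧸ Γ) → ℍ → ℂ} (hF : F ∈ VM (SL(2, ℤ) ⧸ Γ) k) :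
    IsMF Γ k (F ((1 : SL(2, ℤ)) : SL(2, ℤ) ⧸ Γ)) :=
  ⟨hF.1 _, slash_one_of_mem hF.2.1, fun γ => by
    rw [slash_one_of_equivariant hF.2.1]; exact hF.2.2 _⟩

lemma isCF_of_mem_VS {k : ℤ} {F : (SL(2, ℤ) ⧸ Γ) → ℍ → ℂ} (hF : F ∈ VS (SL(2, ℤ) ⧸ Γ) k) :
    IsCF Γ k (F ((1 : SL(2, ℤ)) : SL(2, ℤ) ⧸ Γ)) :=
  ⟨hF.1 _, slash_one_of_mem hF.2.1, fun γ => by
    rw [slash_one_of_equivariant hF.2.1]; exact hF.2.2 _⟩

/-- `CF Γ k ≃ VS (SL(2,ℤ) ⧸ Γ) k`, `f ↦ (q ↦ tr k f q)`. -/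
def cfEquivVS (Γ : Subgroup SL(2, ℤ)) (k : ℤ) : CF Γ k ≃ₗ[ℂ] VS (SL(2, ℤ) ⧸ Γ) k where
  toFun f := ⟨fun q => tr k f.1 q, tr_mem_VS f.2⟩
  map_add' f g := by
    ext1
    funext q
    exact tr_add q
  map_smul' c f := by
    ext1
    funext q
    exact tr_smul c q
  invFun F := ⟨F.1 ((1 : SL(2, ℤ)) : SL(2, ℤ) ⧸ Γ), isCF_of_mem_VS F.2⟩
  left_inv f := by
    ext1
    exact tr_one f.2.2.1
  right_inv F := by
    ext1
    funext q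
    exact tr_one_of_equivariant F.2.2.1 q

lemma VM_eq_bot_of_neg [Γ.FiniteIndex] {k : ℤ} (hk : k < 0) : VM (SL(2, ℤ) ⧸ Γ) k = ⊥ := by
  rw [eq_bot_iff]
  intro F hF
  rw [Submodule.mem_bot]
  funext q
  rw [← tr_one_of_equivariant hF.2.1 q, (isMF_of_mem_VM hF).eq_zero_of_neg hk, tr_zero]
  rfl

lemma VS_eq_bot_of_nonpos [Γ.FiniteIndex] {k : ℤ} (hk : k ≤ 0) :
    VS (SL(2, ℤ) ⧸ Γ) k = ⊥ := by
  rcases hk.lt_or_eq with hk | rfl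
  · exact eq_bot_iff.mpr ((VS_le_VM k).trans (VM_eq_bot_of_neg hk).le)
  rw [eq_bot_iff]
  intro F hF
  rw [Submodule.mem_bot]
  have hcf := isCF_of_mem_VS hF
  obtain ⟨c, hc⟩ := hcf.isMF.const_of_weight_zero
  have h0 : Tendsto (F ((1 : SL(2, ℤ)) : SL(2, ℤ) ⧸ Γ)) atImInfty (𝓝 0) := hF.2.2 _
  rw [hc] at h0
  have hc0 : c = 0 := tendsto_nhds_unique tendsto_const_nhds h0
  funext q
  rw [← tr_one_of_equivariant hF.2.1 q, hc, hc0]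
  exact tr_zero q

lemma finrank_VM_zero [Γ.FiniteIndex] : Module.finrank ℂ (VM (SL(2, ℤ) ⧸ Γ) 0) = 1 := by
  have h1 : (fun (_ : SL(2, ℤ) ⧸ Γ) (_ : ℍ) => (1 : ℂ)) ∈ VM (SL(2, ℤ) ⧸ Γ) 0 := by
    have := tr_mem_VM (Γ := Γ) (IsMF.const (Γ := Γ) (1 : ℂ))
    convert this using 1
    funext q
    exact (tr_levelOne (IsMF.const (1 : ℂ)) q).symm
  rw [finrank_eq_one_iff_of_nonzero' (⟨_, h1⟩ : VM (SL(2, ℤ) ⧸ Γ) 0) (by
    intro h
    have := congrFun (congrFun (congrArg Subtype.val h) ((1 : SL(2, ℤ)) : SL(2, ℤ) ⧸ Γ)) I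
    simp at this)]
  rintro ⟨F, hF⟩
  obtain ⟨c, hc⟩ := (isMF_of_mem_VM hF).const_of_weight_zero
  refine ⟨c, ?_⟩
  ext1
  funext q
  show c • (fun _ : ℍ => (1 : ℂ)) = F q
  rw [← tr_one_of_equivariant hF.2.1 q, hc, tr_levelOne (IsMF.const c) q]
  funext z
  simp

lemma neg_one_smul_of_mem (hneg : -1 ∈ Γ) (x : SL(2, ℤ) ⧸ Γ) : (-1 : SL(2, ℤ)) • x = x := by
  induction x using QuotientGroup.induction_on with
  | H g =>
    rw [MulAction.Quotient.smul_mk, QuotientGroup.eq, smul_eq_mul]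
    have : (-1 * g)⁻¹ * g = -1 := by
      rw [mul_inv_rev]
      have h2 : (-1 : SL(2, ℤ))⁻¹ = -1 := by
        rw [inv_eq_iff_mul_eq_one]; simp
      rw [h2]
      simp
    rw [this]
    exact hneg

open Classical in
theorem exists_sqBasis (hΓ : Good Γ) :
    haveI := hΓ.finiteIndex
    ∃ B : SqBasis (SL(2, ℤ) ⧸ Γ), (∀ z, (evMat B.F z).det ≠ 0) ∧
      (Finset.univ.filter fun y => (4 : ℤ) ∣ B.k y).card = d0 Γ ModularGroup.S ∧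
      (Finset.univ.filter fun y => (6 : ℤ) ∣ B.k y).card
        = d0 Γ (ModularGroup.S * ModularGroup.T) := by
  have := hΓ.finiteIndex
  obtain ⟨n, wt, f, h⟩ := exists_freeBasis hΓ
  have hcard : Fintype.card (SL(2, ℤ) ⧸ Γ) = Fintype.card (Fin n) := by
    rw [h.card_eq hΓ, Subgroup.index, Nat.card_eq_fintype_card]
  let e : (SL(2, ℤ) ⧸ Γ) ≃ Fin n := Fintype.equivOfCardEq hcard
  have hcount : ∀ d : ℤ, (Finset.univ.filter fun y : SL(2, ℤ) ⧸ Γ => d ∣ wt (e y)).card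
      = Nat.card {j // d ∣ wt j} := by
    intro d
    rw [Nat.card_eq_fintype_card, Fintype.card_subtype]
    refine Finset.card_bij (fun y _ => e y) ?_ ?_ ?_
    · intro y hy
      simpa using hy
    · intro y _ y' _ hyy
      exact e.injective hyy
    · intro j hj
      exact ⟨e.symm j, by simpa using hj, by simp⟩
  refine ⟨⟨fun y => wt (e y), fun y q => tr (wt (e y)) (f (e y)) q,
    fun y => tr_mem_VM (h.mem (e y)), ?_, ?_⟩, ?_, ?_, ?_⟩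
  · intro w H hH
    obtain ⟨a, ha, hHa⟩ := h.span w _ (isMF_of_mem_VM hH)
    refine ⟨fun y => a (e y), fun y => ha (e y), ?_⟩
    funext q
    rw [← tr_one_of_equivariant hH.2.1 q, hHa, tr_sum, Finset.sum_apply,
      ← Equiv.sum_comp e]
    refine Finset.sum_congr rfl fun y _ => ?_
    rw [tr_cast (show w = (w - wt (e y)) + wt (e y) by ring), tr_mul, tr_levelOne (ha (e y))]
    rfl
  · intro w a ha hrel y
    have h1 := h.indep w (fun j => a (e.symm j)) (fun j => by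
      have := ha (e.symm j)
      simpa using this) (by
      have h2 := congrFun hrel ((1 : SL(2, ℤ)) : SL(2, ℤ) ⧸ Γ)
      rw [Finset.sum_apply] at h2
      rw [← Equiv.sum_comp e]
      rw [Pi.zero_apply] at h2
      rw [← h2]
      refine Finset.sum_congr rfl fun y _ => ?_
      show _ = a y * tr (wt (e y)) (f (e y)) _
      rw [tr_one (h.mem (e y)).2.1]
      simp) (e y)
    simpa using h1
  · intro z
    have hli := (h.linearIndependent_vec hΓ z).comp e e.injective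
    have hu := Matrix.linearIndependent_cols_iff_isUnit
      (A := evMat (fun (y q : SL(2, ℤ) ⧸ Γ) => tr (wt (e y)) (f (e y)) q) z) |>.mp hli
    exact ((Matrix.isUnit_iff_isUnit_det _).mp hu).ne_zero
  · exact (hcount 4).trans (h.card_four_dvd hΓ)
  · exact (hcount 6).trans (h.card_six_dvd hΓ)

end

end Fermat.Agent.S20
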