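import Fermat.Agent.S20.Basic

set_option autoImplicit false

open UpperHalfPlane ModularForm MatrixGroups Filter Topology
open scoped Manifold Real

namespace Fermat.Agent.S20

open Fermat.Agent.ES

noncomputable section

local notation "Δ" => ModularForm.discriminant

variable {X : Type} [MulAction SL(2, ℤ) X]

variable [Fintype X] [DecidableEq X]

omit [MulAction SL(2, ℤ) X] [Fintype X] [DecidableEq X] in
lemma lmul_add_left (a b : ℍ → ℂ) (F : X → ℍ → ℂ) : lmul (a + b) F = lmul a F + lmul b F := by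
  funext x
  simp only [lmul, Pi.add_apply, add_mul]

omit [MulAction SL(2, ℤ) X] [Fintype X] [DecidableEq X] in
lemma lmul_smul_left (c : ℂ) (a : ℍ → ℂ) (F : X → ℍ → ℂ) : lmul (c • a) F = c • lmul a F := by
  funext x
  simp only [lmul, Pi.smul_apply, smul_mul_assoc]

omit [MulAction SL(2, ℤ) X] [DecidableEq X] in
lemma sum_lmul_apply (a : X → ℍ → ℂ) (G : X → X → ℍ → ℂ) (x : X) (z : ℍ) :
    (∑ y, lmul (a y) (G y)) x z = ∑ y, a y z * G y x z := by
  simp only [Finset.sum_apply, lmul, Pi.mul_apply]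

omit [MulAction SL(2, ℤ) X] [DecidableEq X] in
/-- A submodule of vector valued functions which is "free" over the level one forms on a
homogeneous family `G` is a product of spaces of level one forms. -/
theorem exists_equiv_of_family {V : Submodule ℂ (X → ℍ → ℂ)} (wts : X → ℤ) (G : X → X → ℍ → ℂ)
    (hmem : ∀ a : X → ℍ → ℂ, (∀ y, IsMF ⊤ (wts y) (a y)) → ∑ y, lmul (a y) (G y) ∈ V)
    (hspan : ∀ H ∈ V, ∃ a : X → ℍ → ℂ, (∀ y, IsMF ⊤ (wts y) (a y)) ∧ H = ∑ y, lmul (a y) (G y))
    (hindep : ∀ a : X → ℍ → ℂ, (∀ y, IsMF ⊤ (wts y) (a y)) →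
      ∑ y, lmul (a y) (G y) = 0 → ∀ y, a y = 0) :
    Nonempty ((Π y, MF ⊤ (wts y)) ≃ₗ[ℂ] V) := by
  let φ : (Π y, MF ⊤ (wts y)) →ₗ[ℂ] V :=
    { toFun := fun a => ⟨∑ y, lmul (a y : ℍ → ℂ) (G y), hmem (fun y => a y) fun y => (a y).2⟩
      map_add' := by
        intro a b
        apply Subtype.ext
        simp only [Pi.add_apply, Submodule.coe_add, lmul_add_left, Finset.sum_add_distrib]
      map_smul' := by
        intro c a
        apply Subtype.ext
        simp only [Pi.smul_apply, Submodule.coe_smul, lmul_smul_left, Finset.smul_sum,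
          RingHom.id_apply] }
  refine ⟨LinearEquiv.ofBijective φ ⟨?_, ?_⟩⟩
  · rw [← LinearMap.ker_eq_bot, eq_bot_iff]
    intro a ha
    rw [LinearMap.mem_ker] at ha
    have h1 : ∑ y, lmul (a y : ℍ → ℂ) (G y) = 0 := congrArg Subtype.val ha
    have h2 := hindep (fun y => a y) (fun y => (a y).2) h1
    rw [Submodule.mem_bot]
    funext y
    exact Subtype.ext (h2 y)
  · rintro ⟨H, hH⟩
    obtain ⟨a, ha, rfl⟩ := hspan H hH
    exact ⟨fun y => ⟨a y, ha y⟩, rfl⟩

omit [MulAction SL(2, ℤ) X] [DecidableEq X] in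
theorem finrank_pi_MF_top (wts : X → ℤ) :
    Module.finrank ℂ (Π y, MF ⊤ (wts y)) = ∑ y, rdim (wts y) := by
  have := fun y => finite_MF_top (wts y)
  rw [Module.finrank_pi_fintype]
  exact Finset.sum_congr rfl fun y _ => finrank_MF_top_eq_rdim _

omit [DecidableEq X] in
theorem exists_equiv_VM (B : SqBasis X) (w : ℤ) :
    Nonempty ((Π y, MF ⊤ (w - B.k y)) ≃ₗ[ℂ] VM X w) := by
  refine exists_equiv_of_family (fun y => w - B.k y) B.F ?_ (B.span w) (B.indep w)
  intro a ha
  refine Submodule.sum_mem _ fun y _ => ?_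
  have := lmul_mem_VM (ha y) (B.mem y)
  rwa [sub_add_cancel] at this

theorem finrank_VM (B : SqBasis X) (w : ℤ) :
    Module.finrank ℂ (VM X w) = ∑ y, rdim (w - B.k y) := by
  obtain ⟨e⟩ := exists_equiv_VM B w
  rw [← e.finrank_eq, finrank_pi_MF_top]

theorem finiteDimensional_VM (B : SqBasis X) (w : ℤ) : FiniteDimensional ℂ (VM X w) := by
  obtain ⟨e⟩ := exists_equiv_VM B w
  have := fun y => finite_MF_top (w - B.k y)
  exact Module.Finite.equiv e

theorem finrank_VS (B : SqBasis X) (hdet : ∀ z, (evMat B.F z).det ≠ 0)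
    (hdual : ∀ y, dual B.F y ∈ VS X (12 - B.k y)) (w : ℤ) :
    Module.finrank ℂ (VS X w) = ∑ y, rdim (w + B.k y - 12) := by
  have hunit : ∀ z, IsUnit (evMat B.F z).det := fun z => (hdet z).isUnit
  suffices he : Nonempty ((Π y, MF ⊤ (w + B.k y - 12)) ≃ₗ[ℂ] VS X w) by
    obtain ⟨e⟩ := he
    rw [← e.finrank_eq, finrank_pi_MF_top]
  refine exists_equiv_of_family (V := VS X w) (fun y => w + B.k y - 12) (dual B.F) ?_ ?_ ?_
  · intro a ha
    refine Submodule.sum_mem _ fun y _ => ?_
    have := lmul_mem_VS (ha y) (hdual y)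
    have hw : w + B.k y - 12 + (12 - B.k y) = w := by ring
    rwa [hw] at this
  · intro H hH
    have h1 : ∀ y, ∃ g, IsMF ⊤ (w + B.k y - 12) g ∧ ∑ x, B.F y x * H x = Δ * g := by
      intro y
      obtain ⟨g, hg, hgeq⟩ := levelOne_cusp_eq_discriminant_mul (pair_isCF (B.mem y) hH)
      exact ⟨g, hg.cast (by ring), hgeq⟩
    choose g hg hgeq using h1
    refine ⟨g, hg, ?_⟩
    funext x z
    rw [sum_lmul_apply]
    have h2 : ∀ y, g y z * dual B.F y x z
        = ∑ x', H x' z * (evMat B.F z x' y * (evMat B.F z)⁻¹ y x) := by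
      intro y
      have h3 := congrFun (hgeq y) z
      simp only [Finset.sum_apply, Pi.mul_apply] at h3
      unfold dual
      rw [← mul_assoc, mul_comm (g y z), ← h3, Finset.sum_mul]
      refine Finset.sum_congr rfl fun x' _ => ?_
      simp only [evMat, Matrix.of_apply]
      ring
    simp only [h2]
    rw [Finset.sum_comm]
    simp only [← Finset.mul_sum]
    have h4 : ∀ x', ∑ y, evMat B.F z x' y * (evMat B.F z)⁻¹ y x = (1 : Matrix X X ℂ) x' x := by
      intro x'
      rw [← Matrix.mul_apply, Matrix.mul_nonsing_inv _ (hunit z)]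
    simp only [h4, Matrix.one_apply, mul_ite, mul_one, mul_zero, Finset.sum_ite_eq',
      Finset.mem_univ, if_true]
  · intro a _ hsum y
    funext z
    have h1 : Matrix.vecMul (fun y => a y z) (evMat B.F z)⁻¹ = 0 := by
      funext x
      have h2 := congrFun (congrFun hsum x) z
      rw [sum_lmul_apply] at h2
      simp only [dual, Pi.zero_apply] at h2
      have h3 : Δ z * ∑ y, a y z * (evMat B.F z)⁻¹ y x = 0 := by
        rw [Finset.mul_sum, ← h2]
        exact Finset.sum_congr rfl fun y _ => by ring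
      simpa [Matrix.vecMul, dotProduct, discriminant_ne_zero z] using h3
    have h2 := congrArg (fun v => Matrix.vecMul v (evMat B.F z)) h1
    simp only [Matrix.vecMul_vecMul, Matrix.nonsing_inv_mul _ (hunit z), Matrix.vecMul_one,
      Matrix.zero_vecMul] at h2
    exact congrFun h2 y

end

end Fermat.Agent.S20
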