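import Fermat.Agent.S20.AtInfty
import Fermat.Agent.S20.Structure

set_option autoImplicit false

open UpperHalfPlane ModularForm MatrixGroups Filter Topology
open scoped Manifold Real

namespace Fermat.Agent.S20

open Fermat.Agent.ES

noncomputable section

local notation "Δ" => ModularForm.discriminant

variable {X : Type} [MulAction SL(2, ℤ) X]

variable [Fintype X] [DecidableEq X]

theorem finrank_VM_sub_VS (B : SqBasis X)
    {m : ℕ} (hm : 0 < m) (hT : ∀ x : X, (ModularGroup.T ^ m) • x = x)
    (hL : (linfMat m B.F).det ≠ 0) (hk : ∀ y, Even (B.k y) ∧ B.k y ≤ 20) :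
    Module.finrank ℂ (VM X 24) = Module.finrank ℂ (VS X 24)
      + Module.finrank ℂ (permInv (MulAction.toPerm ModularGroup.T : Equiv.Perm X)) := by
  have := finiteDimensional_VM B 24
  have hlim : ∀ F : VM X 24, Tendsto (fun z => ev F.1 z) atImInfty
      (𝓝 (proj X m 0 (Linf m F.1))) := fun F => tendsto_ev hm hT F.2
  let φ : VM X 24 →ₗ[ℂ] permInv (MulAction.toPerm ModularGroup.T : Equiv.Perm X) :=
    { toFun := fun F => ⟨proj X m 0 (Linf m F.1), fun x => proj_zero_invariant hm hT _ x⟩
      map_add' := fun F G => Subtype.ext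
        (tendsto_nhds_unique (hlim (F + G)) ((hlim F).add (hlim G)))
      map_smul' := fun c F => Subtype.ext
        (tendsto_nhds_unique (hlim (c • F)) ((hlim F).const_smul c)) }
  have hφ : ∀ F : VM X 24, (φ F : X → ℂ) = proj X m 0 (Linf m F.1) := fun _ => rfl
  -- kernel
  have hker : LinearMap.ker φ = Submodule.comap (VM X 24).subtype (VS X 24) := by
    ext F
    rw [LinearMap.mem_ker, Submodule.mem_comap, Submodule.subtype_apply]
    constructor
    · intro h
      have h0 : proj X m 0 (Linf m F.1) = 0 := by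
        rw [← hφ, h]; rfl
      have h1 := hlim F
      rw [h0, tendsto_pi_nhds] at h1
      exact ⟨F.2.1, F.2.2.1, fun x => h1 x⟩
    · intro h
      apply Subtype.ext
      rw [hφ]
      refine tendsto_nhds_unique (hlim F) ?_
      rw [tendsto_pi_nhds]
      exact fun x => h.2.2 x
  -- surjectivity
  have hsurj : LinearMap.range φ = ⊤ := by
    rw [LinearMap.range_eq_top]
    rintro ⟨v, hv⟩
    set c : X → ℂ := (linfMat m B.F)⁻¹.mulVec v with hc
    have hcv : (linfMat m B.F).mulVec c = v := by
      rw [hc, Matrix.mulVec_mulVec, Matrix.mul_nonsing_inv _ (Ne.isUnit hL), Matrix.one_mulVec]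
    have hex : ∀ y, ∃ e : ℍ → ℂ, IsMF ⊤ (24 - B.k y) e ∧ Tendsto e atImInfty (𝓝 1) := by
      intro y
      refine exists_levelOne_tendsto_one ?_ ?_
      · exact Even.sub (by decide) (hk y).1
      · have := (hk y).2
        omega
    choose e he1 he2 using hex
    have hmem : ∀ y, lmul (e y) (B.F y) ∈ VM X 24 := by
      intro y
      have := lmul_mem_VM (he1 y) (B.mem y)
      rwa [sub_add_cancel] at this
    have hG : (∑ y, c y • lmul (e y) (B.F y)) ∈ VM X 24 :=
      Submodule.sum_mem _ fun y _ => Submodule.smul_mem _ _ (hmem y)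
    refine ⟨⟨_, hG⟩, Subtype.ext ?_⟩
    rw [hφ]
    show proj X m 0 (Linf m (∑ y, c y • lmul (e y) (B.F y))) = v
    rw [Linf_sum_lmul hm hT c e B.k B.F B.mem he2 hG]
    have : ∑ y, c y • Linf m (B.F y) = v := by
      rw [← hcv]
      funext x
      simp [Matrix.mulVec, dotProduct, linfMat, mul_comm]
    rw [this]
    exact proj_zero_of_invariant hm hT hv
  have h := LinearMap.finrank_range_add_finrank_ker φ
  rw [hsurj, finrank_top, hker,
    (Submodule.comapSubtypeEquivOfLe (VS_le_VM (X := X) 24)).finrank_eq] at h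
  omega

end

end Fermat.Agent.S20
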