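import Fermat.Agent.ES.Basic

set_option autoImplicit false

open UpperHalfPlane ModularForm MatrixGroups Filter Topology
open scoped Manifold Real

namespace Fermat.Agent.S20

noncomputable section

variable (X : Type) [MulAction SL(2, ℤ) X]

/-- Vector valued modular forms of weight `k` for the permutation representation on `X`. -/
def VM (k : ℤ) : Submodule ℂ (X → ℍ → ℂ) where
  carrier := {F | (∀ x, MDiff (F x)) ∧ (∀ (g : SL(2, ℤ)) (x : X), F x ∣[k] g = F (g⁻¹ • x)) ∧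
    ∀ x, IsBoundedAtImInfty (F x)}
  add_mem' := by
    rintro F G ⟨h1, h2, h3⟩ ⟨h1', h2', h3'⟩
    refine ⟨fun x => (h1 x).add (h1' x), fun g x => ?_, fun x => (h3 x).add (h3' x)⟩
    simp only [Pi.add_apply, SlashAction.add_slash, h2, h2']
  zero_mem' := by
    refine ⟨fun x => mdifferentiable_const, fun g x => ?_, fun x => ?_⟩
    · simp only [Pi.zero_apply, SlashAction.zero_slash]
    · exact zero_form_isBoundedAtImInfty
  smul_mem' := by
    rintro c F ⟨h1, h2, h3⟩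
    refine ⟨fun x => (h1 x).const_smul c, fun g x => ?_, fun x => ?_⟩
    · simp only [Pi.smul_apply, SL_smul_slash, h2]
    · exact (h3 x).const_smul_left c

/-- Vector valued cusp forms. -/
def VS (k : ℤ) : Submodule ℂ (X → ℍ → ℂ) where
  carrier := {F | (∀ x, MDiff (F x)) ∧ (∀ (g : SL(2, ℤ)) (x : X), F x ∣[k] g = F (g⁻¹ • x)) ∧
    ∀ x, IsZeroAtImInfty (F x)}
  add_mem' := by
    rintro F G ⟨h1, h2, h3⟩ ⟨h1', h2', h3'⟩
    refine ⟨fun x => (h1 x).add (h1' x), fun g x => ?_, fun x => (h3 x).add (h3' x)⟩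
    simp only [Pi.add_apply, SlashAction.add_slash, h2, h2']
  zero_mem' := by
    refine ⟨fun x => mdifferentiable_const, fun g x => ?_, fun x => ?_⟩
    · simp only [Pi.zero_apply, SlashAction.zero_slash]
    · exact zero_zeroAtFilter _
  smul_mem' := by
    rintro c F ⟨h1, h2, h3⟩
    refine ⟨fun x => (h1 x).const_smul c, fun g x => ?_, fun x => ?_⟩
    · simp only [Pi.smul_apply, SL_smul_slash, h2]
    · exact (h3 x).smul c

variable {X}

lemma mem_VM {k : ℤ} {F : X → ℍ → ℂ} : F ∈ VM X k ↔ (∀ x, MDiff (F x)) ∧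
    (∀ (g : SL(2, ℤ)) (x : X), F x ∣[k] g = F (g⁻¹ • x)) ∧ ∀ x, IsBoundedAtImInfty (F x) :=
  Iff.rfl

lemma mem_VS {k : ℤ} {F : X → ℍ → ℂ} : F ∈ VS X k ↔ (∀ x, MDiff (F x)) ∧
    (∀ (g : SL(2, ℤ)) (x : X), F x ∣[k] g = F (g⁻¹ • x)) ∧ ∀ x, IsZeroAtImInfty (F x) :=
  Iff.rfl

lemma VS_le_VM (k : ℤ) : VS X k ≤ VM X k := by
  rintro F ⟨h1, h2, h3⟩
  exact ⟨h1, h2, fun x => (h3 x).boundedAtFilter⟩

/-- The functional equation in pointwise form. -/
lemma VM_apply_smul {k : ℤ} {F : X → ℍ → ℂ} (hF : F ∈ VM X k) (g : SL(2, ℤ)) (x : X) (z : ℍ) :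
    F x (g • z) = denom g z ^ k * F (g⁻¹ • x) z := by
  have h := congrFun (hF.2.1 g x) z
  rw [SL_slash_apply] at h
  rw [← h, mul_comm (F x (g • z)), ← mul_assoc, ← zpow_add₀ (denom_ne_zero g z)]
  simp

/-! ### Further definitions used throughout -/

/-- product of a scalar function with a vector valued function -/
def lmul (a : ℍ → ℂ) (F : X → ℍ → ℂ) : X → ℍ → ℂ := fun x => a * F x

/-- evaluation of a vector valued function -/
def ev (F : X → ℍ → ℂ) (z : ℍ) : X → ℂ := fun x => F x z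

/-- dimension of the space of level one forms of weight `k` -/
def rdim (k : ℤ) : ℕ :=
  if k < 0 ∨ Odd k then 0 else if k % 12 = 2 then (k / 12).toNat else (k / 12).toNat + 1

variable (X) in
/-- translation operator on vectors -/
def tau : (X → ℂ) →ₗ[ℂ] (X → ℂ) := LinearMap.funLeft ℂ ℂ (fun x => (ModularGroup.T)⁻¹ • x)

variable (X) in
/-- projection onto the `exp (2 π i r / m)`-eigenspace of `tau` (when `tau ^ m = 1`) -/
def proj (m r : ℕ) : (X → ℂ) →ₗ[ℂ] (X → ℂ) :=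
  (m : ℂ)⁻¹ • ∑ i ∈ Finset.range m, Complex.exp (-2 * π * Complex.I * r * i / m) • (tau X ^ i)

variable (X) in
/-- rescaling operator `∑ r < m, q ^ (- r / m) • proj r` -/
def scal (m : ℕ) (z : ℍ) : (X → ℂ) →ₗ[ℂ] (X → ℂ) :=
  ∑ r ∈ Finset.range m, Complex.exp (-2 * π * Complex.I * r * z / m) • proj X m r

/-- the leading coefficient vector at infinity -/
def Linf (m : ℕ) (F : X → ℍ → ℂ) : X → ℂ := limUnder atImInfty (fun z => scal X m z (ev F z))

/-- evaluation matrix of a family indexed by `X` -/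
def evMat (F : X → X → ℍ → ℂ) (z : ℍ) : Matrix X X ℂ := Matrix.of fun x y => F y x z

/-- matrix of leading vectors -/
def linfMat (m : ℕ) (F : X → X → ℍ → ℂ) : Matrix X X ℂ := Matrix.of fun x y => Linf m (F y) x

variable (X) in
/-- a free basis indexed by `X` itself -/
structure SqBasis [Fintype X] where
  k : X → ℤ
  F : X → X → ℍ → ℂ
  mem : ∀ y, F y ∈ VM X (k y)
  span : ∀ (w : ℤ) (H : X → ℍ → ℂ), H ∈ VM X w →
    ∃ a : X → ℍ → ℂ, (∀ y, ES.IsMF ⊤ (w - k y) (a y)) ∧ H = ∑ y, lmul (a y) (F y)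
  indep : ∀ (w : ℤ) (a : X → ℍ → ℂ), (∀ y, ES.IsMF ⊤ (w - k y) (a y)) →
    ∑ y, lmul (a y) (F y) = 0 → ∀ y, a y = 0

/-- the dual family -/
def dual [Fintype X] [DecidableEq X] (F : X → X → ℍ → ℂ) (y x : X) (z : ℍ) : ℂ :=
  ModularForm.discriminant z * ((evMat F z)⁻¹) y x

end

end Fermat.Agent.S20
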