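import Fermat.Agent.S20.Basic

set_option autoImplicit false

open UpperHalfPlane ModularForm MatrixGroups Filter Topology
open scoped Manifold Real

namespace Fermat.Agent.S20

open Fermat.Agent.ES

noncomputable section

local notation "Δ" => ModularForm.discriminant

variable {X : Type} [MulAction SL(2, ℤ) X]

lemma div_Delta_mem_VM {k : ℤ} {F : X → ℍ → ℂ} (hF : F ∈ VM X k)
    (hO : ∀ x, F x =O[atImInfty] fun z => Real.exp (-2 * π * z.im)) :
    (fun x => F x / Δ) ∈ VM X (k - 12) := sorry

end

end Fermat.Agent.S20
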