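import Fermat.Agent.S20.AtInfty

set_option autoImplicit false

open UpperHalfPlane ModularForm MatrixGroups Filter Topology
open scoped Manifold Real

namespace Fermat.Agent.S20

open Fermat.Agent.ES

noncomputable section

local notation "Δ" => ModularForm.discriminant

variable {X : Type} [MulAction SL(2, ℤ) X]

variable [Fintype X] [DecidableEq X]

namespace DualAux

/-- The determinant of a matrix of holomorphic functions is holomorphic. -/
theorem mdiff_det {n : Type} [Fintype n] [DecidableEq n] (M : n → n → ℍ → ℂ)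
    (hM : ∀ i j, MDiff (M i j)) :
    MDiff (fun z => Matrix.det (Matrix.of fun i j => M i j z)) := by
  have h : (fun z => Matrix.det (Matrix.of fun i j => M i j z))
      = ∑ σ : Equiv.Perm n, (fun _ : ℍ => (((Equiv.Perm.sign σ : ℤˣ) : ℤ) : ℂ)) * ∏ i, M (σ i) i := by
    funext z
    simp [Matrix.det_apply']
  rw [h]
  exact MDifferentiable.sum fun σ _ =>
    mdifferentiable_const.mul (MDifferentiable.prod fun i _ => hM (σ i) i)

/-- The entries of the inverse of an invertible matrix of holomorphic functions are holomorphic. -/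
theorem mdiff_inv_entry {n : Type} [Fintype n] [DecidableEq n] (M : n → n → ℍ → ℂ)
    (hM : ∀ i j, MDiff (M i j)) (hdet : ∀ z, (Matrix.of fun i j => M i j z).det ≠ 0) (i j : n) :
    MDiff (fun z => ((Matrix.of fun i j => M i j z)⁻¹ : Matrix n n ℂ) i j) := by
  have h : (fun z => ((Matrix.of fun i j => M i j z)⁻¹ : Matrix n n ℂ) i j)
      = (fun z => Matrix.det (Matrix.of fun i j => M i j z))⁻¹ *
        (fun z => Matrix.det (Matrix.of fun a b =>
          (if a = j then (fun _ : ℍ => (Pi.single i 1 : n → ℂ) b) else M a b) z)) := by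
    funext z
    simp only [Pi.mul_apply, Pi.inv_apply]
    rw [Matrix.inv_def, Matrix.smul_apply, Matrix.adjugate_apply, Ring.inverse_eq_inv', smul_eq_mul]
    congr 2
    ext a b
    simp only [Matrix.updateRow_apply, Matrix.of_apply]
    split_ifs <;> rfl
  rw [h]
  refine ((mdiff_det M hM).inv hdet).mul (mdiff_det _ fun a b => ?_)
  split_ifs
  · exact mdifferentiable_const
  · exact hM a b

theorem discriminant_smul (g : SL(2, ℤ)) (z : ℍ) : Δ (g • z) = denom g z ^ (12 : ℤ) * Δ z := by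
  have h := congrFun (isCF_discriminant.slash_eq (Subgroup.mem_top g)) z
  rw [SL_slash_apply] at h
  rw [← h, mul_comm (Δ (g • z)), ← mul_assoc, ← zpow_add₀ (denom_ne_zero g z)]
  simp

theorem evMat_inv_smul {F : X → X → ℍ → ℂ} {k : X → ℤ} (hF : ∀ y, F y ∈ VM X (k y))
    (hdet : ∀ z, (evMat F z).det ≠ 0) (g : SL(2, ℤ)) (z : ℍ) (y x : X) :
    ((evMat F (g • z))⁻¹) y x = denom g z ^ (-k y) * ((evMat F z)⁻¹) y (g⁻¹ • x) := by
  have hd := denom_ne_zero g z
  have key : (Matrix.of fun y x => denom g z ^ (-k y) * ((evMat F z)⁻¹) y (g⁻¹ • x)) *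
      evMat F (g • z) = 1 := by
    ext y y'
    rw [Matrix.mul_apply]
    have h1 : ∀ x : X, (Matrix.of fun y x => denom g z ^ (-k y) * ((evMat F z)⁻¹) y (g⁻¹ • x)) y x *
        evMat F (g • z) x y' = denom g z ^ (-k y) * denom g z ^ (k y') *
          (((evMat F z)⁻¹) y (g⁻¹ • x) * evMat F z (g⁻¹ • x) y') := by
      intro x
      simp only [Matrix.of_apply, evMat]
      rw [VM_apply_smul (hF y') g x z]
      ring
    have h2 : ∑ x : X, ((evMat F z)⁻¹) y (g⁻¹ • x) * evMat F z (g⁻¹ • x) y' =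
        ∑ x : X, ((evMat F z)⁻¹) y x * evMat F z x y' :=
      Equiv.sum_comp (MulAction.toPerm g⁻¹) (fun x => ((evMat F z)⁻¹) y x * evMat F z x y')
    rw [Finset.sum_congr rfl fun x _ => h1 x, ← Finset.mul_sum, h2,
      ← Matrix.mul_apply, Matrix.nonsing_inv_mul _ (isUnit_iff_ne_zero.mpr (hdet z))]
    by_cases h : y = y'
    · subst h
      rw [Matrix.one_apply_eq, ← zpow_add₀ hd]
      simp
    · rw [Matrix.one_apply_ne h, mul_zero]
  rw [Matrix.inv_eq_left_inv key]
  rfl

theorem tendsto_exp_aux {m : ℕ} (hm : 0 < m) :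
    Tendsto (fun z : ℍ => Real.exp (-2 * π * z.im / 1) * Real.exp (2 * π * (m - 1) / m * z.im))
      atImInfty (𝓝 0) := by
  have hm' : (0 : ℝ) < m := by exact_mod_cast hm
  have h : (fun z : ℍ => Real.exp (-2 * π * z.im / 1) * Real.exp (2 * π * (m - 1) / m * z.im))
      = fun z : ℍ => Real.exp (-(2 * π / m) * z.im) := by
    funext z
    rw [← Real.exp_add]
    congr 1
    field_simp
    ring
  rw [h]
  refine Real.tendsto_exp_atBot.comp ?_
  refine Tendsto.const_mul_atTop_of_neg ?_ tendsto_comap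
  have : 0 < 2 * π / m := by positivity
  linarith

theorem dual_zero_at {F : X → X → ℍ → ℂ} {k : X → ℤ} (hF : ∀ y, F y ∈ VM X (k y))
    {m : ℕ} (hm : 0 < m) (hT : ∀ x : X, (ModularGroup.T ^ m) • x = x)
    (hL : (linfMat m F).det ≠ 0) (y x : X) : IsZeroAtImInfty (dual F y x) := by
  set S : ℍ → Matrix X X ℂ := fun z => LinearMap.toMatrix' (scal X m z) with hS
  set Ψ : ℍ → Matrix X X ℂ := fun z => S z * evMat F z with hΨ
  have hΨlim : Tendsto Ψ atImInfty (𝓝 (linfMat m F)) := by
    refine tendsto_pi_nhds.mpr fun a => tendsto_pi_nhds.mpr fun b => ?_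
    have h := (tendsto_pi_nhds.mp (tendsto_scal hm hT (hF b))) a
    have h' : (fun z => Ψ z a b) = fun z => (scal X m z) (ev (F b) z) a := by
      funext z
      rw [← LinearMap.toMatrix'_mulVec]
      rfl
    rw [h']
    exact h
  have hdetlim : Tendsto (fun z => (Ψ z).det) atImInfty (𝓝 (linfMat m F).det) :=
    (Continuous.matrix_det continuous_id).continuousAt.tendsto.comp hΨlim
  have hinvlim : Tendsto (fun z => (Ψ z)⁻¹) atImInfty (𝓝 (linfMat m F)⁻¹) := by
    simp only [Matrix.inv_def, Ring.inverse_eq_inv']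
    exact (hdetlim.inv₀ hL).smul
      ((Continuous.matrix_adjugate continuous_id).continuousAt.tendsto.comp hΨlim)
  have hev : ∀ᶠ z in atImInfty, (Ψ z).det ≠ 0 := hdetlim.eventually_ne hL
  obtain ⟨C, hC⟩ := scal_bound (X := X) hm
  have hΔ : (Δ : ℍ → ℂ) =O[atImInfty] fun τ : ℍ => Real.exp (-2 * π * τ.im / 1) :=
    CuspFormClass.exp_decay_atImInfty (h := 1) CuspForm.discriminant one_pos
      one_mem_strictPeriods_SL
  have hterm : ∀ c, Tendsto (fun z => Δ z * S z c x) atImInfty (𝓝 0) := by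
    intro c
    have h1 : (fun z => S z c x) =O[atImInfty]
        fun z : ℍ => Real.exp (2 * π * (m - 1) / m * z.im) := by
      refine Asymptotics.IsBigO.of_bound C ?_
      filter_upwards [(atImInfty_mem _).mpr ⟨1, fun z hz => hz⟩] with z hz
      rw [Real.norm_of_nonneg (Real.exp_pos _).le]
      exact hC z hz c x
    exact (hΔ.mul h1).trans_tendsto (tendsto_exp_aux hm)
  have hsum : Tendsto (fun z => ∑ c, (Ψ z)⁻¹ y c * (Δ z * S z c x)) atImInfty (𝓝 0) := by
    have : ∀ c ∈ (Finset.univ : Finset X), Tendsto (fun z => (Ψ z)⁻¹ y c * (Δ z * S z c x))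
        atImInfty (𝓝 ((linfMat m F)⁻¹ y c * 0)) := fun c _ =>
      ((tendsto_pi_nhds.mp (tendsto_pi_nhds.mp hinvlim y)) c).mul (hterm c)
    simpa using tendsto_finsetSum _ this
  refine hsum.congr' ?_
  filter_upwards [hev] with z hz
  have : (evMat F z)⁻¹ = (Ψ z)⁻¹ * S z := Matrix.inv_eq_left_inv (by
    rw [Matrix.mul_assoc]
    exact Matrix.nonsing_inv_mul _ (isUnit_iff_ne_zero.mpr hz))
  simp only [dual, this, Matrix.mul_apply, Finset.mul_sum]
  exact Finset.sum_congr rfl fun c _ => by ring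

end DualAux

theorem dual_mem_VS (B : SqBasis X) (hdet : ∀ z, (evMat B.F z).det ≠ 0)
    {m : ℕ} (hm : 0 < m) (hT : ∀ x : X, (ModularGroup.T ^ m) • x = x)
    (hL : (linfMat m B.F).det ≠ 0) (y : X) : dual B.F y ∈ VS X (12 - B.k y) := by
  refine ⟨fun x => ?_, fun g x => ?_, fun x => ?_⟩
  · exact isCF_discriminant.mdiff.mul
      (DualAux.mdiff_inv_entry (fun x y => B.F y x) (fun x y => (B.mem y).1 x) hdet y x)
  · funext z
    rw [SL_slash_apply]
    simp only [dual]
    rw [DualAux.discriminant_smul, DualAux.evMat_inv_smul B.mem hdet]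
    have hd := denom_ne_zero g z
    have : denom g z ^ (12 : ℤ) * denom g z ^ (-B.k y) * denom g z ^ (-(12 - B.k y)) = 1 := by
      rw [← zpow_add₀ hd, ← zpow_add₀ hd]
      have : (12 : ℤ) + -B.k y + -(12 - B.k y) = 0 := by ring
      rw [this, zpow_zero]
    linear_combination (Δ z * ((evMat B.F z)⁻¹) y (g⁻¹ • x)) * this
  · exact DualAux.dual_zero_at B.mem hm hT hL y x

end

end Fermat.Agent.S20
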