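import Fermat.Agent.S20.StepA
import Fermat.Agent.S20.Dual
import Fermat.Agent.S20.Structure
import Fermat.Agent.S20.ConstTerm
import Fermat.Agent.S20.Bridge

set_option autoImplicit false

open UpperHalfPlane ModularForm MatrixGroups Filter Topology
open scoped Manifold Real

namespace Fermat.Agent.S20

open Fermat.Agent.ES

noncomputable section

local notation "Δ" => ModularForm.discriminant

variable {X : Type} [MulAction SL(2, ℤ) X]

variable {Γ : Subgroup SL(2, ℤ)}

lemma rdim_identity (k : ℤ) (he : Even k) (h0 : 0 ≤ k) (h10 : k ≤ 10) :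
    2 * rdim (2 + k - 12) + (if (4 : ℤ) ∣ k then 1 else 0) + (if (6 : ℤ) ∣ k then 1 else 0)
      + rdim (24 - k) = 1 + 2 * rdim (0 - k) + rdim (24 + k - 12) := by
  obtain ⟨r, rfl⟩ := he
  have hr : r = 0 ∨ r = 1 ∨ r = 2 ∨ r = 3 ∨ r = 4 ∨ r = 5 := by omega
  rcases hr with rfl | rfl | rfl | rfl | rfl | rfl <;> decide

theorem main_good (hΓ : Good Γ) :
    2 * Module.finrank ℂ (CF Γ 2) + d0 Γ ModularGroup.S
      + d0 Γ (ModularGroup.S * ModularGroup.T) + d0 Γ ModularGroup.T = Γ.index + 2 := by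
  classical
  haveI := hΓ.finiteIndex
  obtain ⟨B, hdet, h4, h6⟩ := exists_sqBasis hΓ
  have hneg : ∀ x : SL(2, ℤ) ⧸ Γ, (-1 : SL(2, ℤ)) • x = x := neg_one_smul_of_mem hΓ.neg_one_mem
  obtain ⟨m, hm, hT⟩ : ∃ m : ℕ, 0 < m ∧ ∀ x : SL(2, ℤ) ⧸ Γ, (ModularGroup.T ^ m) • x = x := by
    refine ⟨orderOf (MulAction.toPermHom SL(2, ℤ) (SL(2, ℤ) ⧸ Γ) ModularGroup.T),
      orderOf_pos _, fun x => ?_⟩
    have h := pow_orderOf_eq_one (MulAction.toPermHom SL(2, ℤ) (SL(2, ℤ) ⧸ Γ) ModularGroup.T)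
    rw [← map_pow] at h
    exact congrArg (fun σ : Equiv.Perm (SL(2, ℤ) ⧸ Γ) => σ x) h
  have hL := det_linfMat_ne_zero hneg hm hT B
  have hdual := dual_mem_VS B hdet hm hT hL
  have hF_ne : ∀ y, B.F y ≠ 0 := by
    intro y h0
    refine hdet UpperHalfPlane.I (Matrix.det_eq_zero_of_column_eq_zero y fun x => ?_)
    simp [evMat, h0]
  have hG_ne : ∀ y, dual B.F y ≠ 0 := by
    intro y h0
    have h1 : ((evMat B.F UpperHalfPlane.I)⁻¹).det = 0 := by
      refine Matrix.det_eq_zero_of_row_eq_zero y fun x => ?_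
      have h2 : dual B.F y x UpperHalfPlane.I = 0 := by rw [h0]; rfl
      exact (mul_eq_zero.mp h2).resolve_left (discriminant_ne_zero _)
    have h3 := Matrix.det_nonsing_inv_mul_det (evMat B.F UpperHalfPlane.I)
      (isUnit_iff_ne_zero.mpr (hdet _))
    rw [h1, zero_mul] at h3
    exact zero_ne_one h3
  have hk : ∀ y, Even (B.k y) ∧ 0 ≤ B.k y ∧ B.k y ≤ 10 := by
    intro y
    have he : Even (B.k y) := by
      by_contra ho
      rw [Int.not_even_iff_odd] at ho
      have := B.mem y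
      rw [VM_eq_bot_of_odd hneg ho, Submodule.mem_bot] at this
      exact hF_ne y this
    have h0 : 0 ≤ B.k y := by
      by_contra hlt
      have := B.mem y
      rw [VM_eq_bot_of_neg (not_le.mp hlt), Submodule.mem_bot] at this
      exact hF_ne y this
    have h12 : 0 < 12 - B.k y := by
      by_contra hle
      have := hdual y
      rw [VS_eq_bot_of_nonpos (not_lt.mp hle), Submodule.mem_bot] at this
      exact hG_ne y this
    refine ⟨he, h0, ?_⟩
    obtain ⟨r, hr⟩ := he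
    omega
  have e1 := finrank_VS B hdet hdual 2
  have e2 := finrank_VM B 0
  have e3 := finrank_VM B 24
  have e4 := finrank_VS B hdet hdual 24
  have e5 := finrank_VM_sub_VS B hm hT hL (fun y => ⟨(hk y).1, by have := (hk y).2.2; omega⟩)
  have e6 : Module.finrank ℂ (VM (SL(2, ℤ) ⧸ Γ) 0) = 1 := finrank_VM_zero
  have e7 := (cfEquivVS Γ 2).finrank_eq
  have e8 : Γ.index = Fintype.card (SL(2, ℤ) ⧸ Γ) := by
    rw [Subgroup.index, Nat.card_eq_fintype_card]
  have hsum := Finset.sum_congr rfl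
    (fun y (_ : y ∈ (Finset.univ : Finset (SL(2, ℤ) ⧸ Γ))) =>
      rdim_identity (B.k y) (hk y).1 (hk y).2.1 (hk y).2.2)
  simp only [Finset.sum_add_distrib, ← Finset.mul_sum, Finset.sum_boole, Finset.sum_const,
    Finset.card_univ, smul_eq_mul, mul_one, Nat.cast_id] at hsum
  rw [h4, h6, ← e1, ← e2, ← e3, ← e4, e5, e6] at hsum
  have e9 : d0 Γ ModularGroup.T
    = Module.finrank ℂ (permInv (MulAction.toPerm ModularGroup.T : Equiv.Perm (SL(2, ℤ) ⧸ Γ))) :=
    rfl
  rw [e7, e8, e9]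
  omega

end

end Fermat.Agent.S20
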