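import Fermat.Agent.S20.AtInfty
import Fermat.Agent.S20.DivDelta

set_option autoImplicit false

open UpperHalfPlane ModularForm MatrixGroups Filter Topology
open scoped Manifold Real

namespace Fermat.Agent.S20

open Fermat.Agent.ES

noncomputable section

local notation "Δ" => ModularForm.discriminant

variable {X : Type} [MulAction SL(2, ℤ) X]

variable [Fintype X] [DecidableEq X]

omit [DecidableEq X] in
lemma SqBasis.F_ne_zero (B : SqBasis X) (y : X) : B.F y ≠ 0 := by
  classical
  intro hy
  have h := B.indep (B.k y) (fun y' => if y' = y then (fun _ => (1 : ℂ)) else 0) (fun y' => ?_) ?_ y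
  · have h1 := congrFun h UpperHalfPlane.I
    simp at h1
  · by_cases hyy : y' = y
    · subst hyy
      simpa using IsMF.const (Γ := ⊤) (1 : ℂ)
    · simpa [hyy] using IsMF.zero
  · refine Finset.sum_eq_zero fun y' _ => ?_
    by_cases hyy : y' = y
    · subst hyy
      funext x z
      simp [lmul, hy]
    · funext x z
      simp [lmul, hyy]

omit [DecidableEq X] in
lemma SqBasis.even_k (hneg : ∀ x : X, (-1 : SL(2, ℤ)) • x = x) (B : SqBasis X) (y : X) :
    Even (B.k y) := by
  by_contra h
  rw [Int.not_even_iff_odd] at h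
  have h2 := B.mem y
  rw [VM_eq_bot_of_odd hneg h, Submodule.mem_bot] at h2
  exact B.F_ne_zero y h2

theorem det_linfMat_ne_zero (hneg : ∀ x : X, (-1 : SL(2, ℤ)) • x = x)
    {m : ℕ} (hm : 0 < m) (hT : ∀ x : X, (ModularGroup.T ^ m) • x = x) (B : SqBasis X) :
    (linfMat m B.F).det ≠ 0 := by
  intro hdet
  obtain ⟨c, hc0, hc⟩ := Matrix.exists_mulVec_eq_zero_iff.mpr hdet
  have heven := B.even_k hneg
  set K : ℤ := 4 + 2 * ∑ y, |B.k y| with hKdef
  have hle : ∀ y, |B.k y| ≤ ∑ y, |B.k y| := fun y =>
    Finset.single_le_sum (f := fun y => |B.k y|) (fun i _ => abs_nonneg _) (Finset.mem_univ y)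
  have hK : ∀ y, 4 ≤ K - B.k y := by
    intro y
    have h1 := hle y
    have h2 := le_abs_self (B.k y)
    have h3 := abs_nonneg (B.k y)
    omega
  have hKe : ∀ y, Even (K - B.k y) := by
    intro y
    refine Even.sub ?_ (heven y)
    exact Even.add ⟨2, rfl⟩ (even_two_mul _)
  choose e he1 he2 using fun y => exists_levelOne_tendsto_one (hKe y) (hK y)
  set G : X → ℍ → ℂ := ∑ y, c y • lmul (e y) (B.F y) with hGdef
  have hG : G ∈ VM X K := Submodule.sum_mem _ fun y _ => Submodule.smul_mem _ _ (by
    have := lmul_mem_VM (he1 y) (B.mem y)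
    simpa using this)
  have hL : Linf m G = 0 := by
    rw [hGdef, Linf_sum_lmul hm hT c e B.k B.F B.mem he2 hG]
    funext x
    have h1 := congrFun hc x
    simp only [Matrix.mulVec, dotProduct, linfMat, Matrix.of_apply, Pi.zero_apply] at h1
    simp only [Finset.sum_apply, Pi.smul_apply, smul_eq_mul, Pi.zero_apply]
    rw [← h1]
    exact Finset.sum_congr rfl fun y _ => mul_comm _ _
  have hO := isBigO_of_Linf_eq_zero hm hT hG hL
  have hdiv := div_Delta_mem_VM hG hO
  obtain ⟨a, ha, hGa⟩ := B.span (K - 12) _ hdiv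
  have hind := B.indep K (fun y => c y • e y - Δ * a y)
    (fun y => ((he1 y).smul _).sub ((isCF_discriminant.isMF.mul (ha y)).cast (by ring))) (by
      funext x z
      have h1 := congrFun (congrFun hGa x) z
      have h3 := discriminant_ne_zero z
      simp only [hGdef, Finset.sum_apply, Pi.smul_apply, lmul, Pi.mul_apply, Pi.div_apply,
        smul_eq_mul, Pi.sub_apply, Pi.zero_apply] at h1 ⊢
      rw [div_eq_iff h3] at h1
      simp only [sub_mul, Finset.sum_sub_distrib]
      rw [sub_eq_zero]
      simp only [← mul_assoc] at h1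
      rw [h1, Finset.sum_mul]
      exact Finset.sum_congr rfl fun y _ => by ring)
  apply hc0
  funext y
  have h1 : c y • e y = Δ * a y := sub_eq_zero.mp (hind y)
  have h2 : Tendsto (c y • e y) atImInfty (𝓝 (c y)) := by
    have := (he2 y).const_smul (c y)
    rw [smul_eq_mul, mul_one] at this
    exact this
  have h3 : Tendsto (Δ * a y) atImInfty (𝓝 0) := by
    have hz : IsZeroAtImInfty (Δ : ℍ → ℂ) := by
      simpa using isCF_discriminant.zero_at 1
    have := BoundedAtFilter.mul_zeroAtFilter (ha y).bdd_self hz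
    rw [mul_comm]
    exact this
  rw [h1] at h2
  exact tendsto_nhds_unique h2 h3

end

end Fermat.Agent.S20
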